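import Mathlib
import Fermat.Prelude.Thm_Algebra_finite_maximalSpectrum_and_bijective_localization_of_module_finite
import Fermat.Agent.S55.Local.Spec

/-!
# S55, layer L, piece UR6 (helper597) — part 1: the ring of integers of a local field is local

`A` complete DVR with fraction field `F` (char 0), `L / F` finite.  The integral closure
`integralClosure A L` (for the algebra structure `toL A F L`) is a Dedekind domain, finite over
`A`, and a *local* ring (by the Prelude structure theorem for finite algebras over complete
local rings, since it is a domain).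
-/

set_option autoImplicit false

namespace Fermat.Agent.S55.Local.H597

open Fermat.Agent.S55.Local

/-- A finite algebra over a complete noetherian local ring which is a domain is local. -/
theorem isLocalRing_of_finite_of_isDomain (𝒪 : Type) [CommRing 𝒪] [IsLocalRing 𝒪]
    [IsNoetherianRing 𝒪] [IsAdicComplete (IsLocalRing.maximalIdeal 𝒪) 𝒪]
    (B : Type) [CommRing B] [IsDomain B] [Algebra 𝒪 B] [Module.Finite 𝒪 B] : IsLocalRing B := by
  classical
  obtain ⟨-, hbij, -, -⟩ :=
    Algebra.finite_maximalSpectrum_and_bijective_localization_of_module_finite (𝒪 := 𝒪) B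
  apply IsLocalRing.of_unique_max_ideal
  obtain ⟨m, hm⟩ := Ideal.exists_maximal B
  refine ⟨m, hm, fun m' hm' => ?_⟩
  by_contra hne
  let M : MaximalSpectrum B := ⟨m, hm⟩
  let M' : MaximalSpectrum B := ⟨m', hm'⟩
  have hMM' : M' ≠ M := fun h => hne (congrArg MaximalSpectrum.asIdeal h)
  obtain ⟨s, hs⟩ := hbij.2 (Pi.single M 1)
  have hs0 : s * (1 - s) = 0 := by
    apply hbij.1
    rw [map_mul, map_sub, map_one, hs, map_zero]
    funext I
    by_cases hI : I = M
    · subst hI; simp
    · simp [Pi.single_eq_of_ne hI]
  rcases mul_eq_zero.1 hs0 with h | h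
  · have := congrFun hs M
    rw [h, map_zero] at this
    simp at this
  · have h1 : s = 1 := (sub_eq_zero.1 h).symm
    have := congrFun hs M'
    rw [h1, map_one] at this
    simp [Pi.single_eq_of_ne hMM'] at this

end Fermat.Agent.S55.Local.H597
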