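import Mathlib
import Fermat.Agent.S55.Local.H597.LocalInt

/-!
# S55, layer L, piece UR6 (helper597) — part 2: the valuation of a local field

`A` complete DVR, `F = Frac A` (char 0), `L / F` finite, `[Algebra A L] [IsScalarTower A F L]`.
The ring of integers `integralClosure A L` is a local Dedekind domain with fraction field `L`;
`valL A F L` is the valuation of its unique height-one prime.  `IsInt` and `intUnits` of
`Local/Defs.lean` are expressed through `valL`.
-/

set_option autoImplicit false
set_option linter.unusedSectionVars false
set_option linter.unusedVariables false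

open Fermat.Agent.S55.Local IsDedekindDomain

namespace Fermat.Agent.S55.Local.H597

section LocalField
variable (A F : Type) [CommRing A] [IsDomain A] [IsDiscreteValuationRing A]
    [IsAdicComplete (IsLocalRing.maximalIdeal A) A] [Finite (IsLocalRing.ResidueField A)]
    [Field F] [CharZero F] [Algebra A F] [IsFractionRing A F]
variable (L : Type) [Field L] [Algebra F L] [FiniteDimensional F L]
variable [Algebra A L] [IsScalarTower A F L]
include F

lemma isInt_iff_isIntegral (x : L) : IsInt A F L x ↔ IsIntegral A x := by
  have h : toL A F L = algebraMap A L := by
    ext a; simp [toL_apply, ← IsScalarTower.algebraMap_apply A F L]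
  unfold IsInt IsIntegral
  rw [h]

theorem isDedekindDomain_OInt : IsDedekindDomain (integralClosure A L) :=
  integralClosure.isDedekindDomain A F L

theorem finite_OInt : Module.Finite A (integralClosure A L) :=
  IsIntegralClosure.finite A F L (integralClosure A L)

theorem isFractionRing_OInt : IsFractionRing (integralClosure A L) L :=
  integralClosure.isFractionRing_of_finite_extension F L

theorem isLocalRing_OInt : IsLocalRing (integralClosure A L) :=
  haveI := finite_OInt A F L
  isLocalRing_of_finite_of_isDomain A (integralClosure A L)

theorem algebraMap_injective_of_tower : Function.Injective (algebraMap A L) := by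
  rw [IsScalarTower.algebraMap_eq A F L]
  exact (algebraMap F L).injective.comp (IsFractionRing.injective A F)

lemma maximalIdeal_OInt_ne_bot [IsLocalRing (integralClosure A L)] :
    IsLocalRing.maximalIdeal (integralClosure A L) ≠ ⊥ := by
  intro h
  have hfield : IsField (integralClosure A L) := IsLocalRing.isField_iff_maximalIdeal_eq.2 h
  have hinj : Function.Injective (algebraMap A (integralClosure A L)) := by
    have := algebraMap_injective_of_tower A F L
    intro a b hab
    apply this
    have := congrArg (algebraMap (integralClosure A L) L) hab
    simpa [← IsScalarTower.algebraMap_apply] using this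
  have : IsField A := isField_of_isIntegral_of_isField hinj hfield
  exact IsDiscreteValuationRing.not_isField A this

variable [IsLocalRing (integralClosure A L)] [IsDedekindDomain (integralClosure A L)]
  [IsFractionRing (integralClosure A L) L]

/-- the unique height one prime of the ring of integers -/
noncomputable def wOInt : HeightOneSpectrum (integralClosure A L) :=
  ⟨IsLocalRing.maximalIdeal _, inferInstance, maximalIdeal_OInt_ne_bot A F L⟩

lemma heightOne_eq_wOInt (v : HeightOneSpectrum (integralClosure A L)) : v = wOInt A F L := by
  apply HeightOneSpectrum.ext
  exact IsLocalRing.eq_maximalIdeal (v.isPrime.isMaximal v.ne_bot)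

/-- the normalized valuation of the local field `L` -/
noncomputable def valL : Valuation L (WithZero (Multiplicative ℤ)) :=
  (wOInt A F L).valuation L

lemma isIntegral_iff_valL_le_one (x : L) : IsIntegral A x ↔ valL A F L x ≤ 1 := by
  constructor
  · intro hx
    have : valL A F L (algebraMap (integralClosure A L) L ⟨x, hx⟩) ≤ 1 :=
      HeightOneSpectrum.valuation_le_one _ _
    simpa using this
  · intro hx
    have := HeightOneSpectrum.mem_integers_of_valuation_le_one (R := integralClosure A L) L x
      (fun v => by rw [heightOne_eq_wOInt A F L v]; exact hx)
    obtain ⟨y, rfl⟩ := this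
    exact y.2

lemma mem_intUnits_iff_valL (x : Lˣ) : x ∈ intUnits A F L ↔ valL A F L (x : L) = 1 := by
  rw [mem_intUnits, isInt_iff_isIntegral, isInt_iff_isIntegral, isIntegral_iff_valL_le_one A F L,
    isIntegral_iff_valL_le_one A F L]
  have hx : valL A F L (x : L) ≠ 0 := by simp
  rw [Units.val_inv_eq_inv_val, map_inv₀]
  constructor
  · rintro ⟨h1, h2⟩
    refine le_antisymm h1 ?_
    rwa [inv_le_one₀ (zero_lt_iff.2 hx)] at h2
  · intro h
    rw [h]; simp

lemma exists_valL_eq_exp_neg_one : ∃ π : L, valL A F L π = WithZero.exp (-1 : ℤ) :=
  HeightOneSpectrum.valuation_exists_uniformizer L (wOInt A F L)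

end LocalField

end Fermat.Agent.S55.Local.H597
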