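import Mathlib
import Fermat.Agent.S55.Local.H597.Val

/-!
# S55, layer L, piece UR6 (helper597) — part 3: value group of a subfield vs inertia

For a finite Galois extension `N / E` of local fields (finite over `F = Frac A`), with
`e := #(inertia subgroup of Gal(N/E))`, the valuation `valL A F N` of `N` maps `Eˣ` onto the
subgroup of `e`-th powers:  `valL (y) = exp (e * m)` for `y ∈ Eˣ`, and some `y ∈ Eˣ` has
`valL (y) = exp (-e)`.
-/

set_option autoImplicit false
set_option linter.unusedSectionVars false
set_option linter.unusedVariables false
set_option linter.style.haveILetI false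

open Fermat.Agent.S55.Local IsDedekindDomain

namespace Fermat.Agent.S55.Local.H597

section Tower
variable (A E N : Type) [CommRing A] [Field E] [Field N] [Algebra A E] [Algebra A N] [Algebra E N]
  [IsScalarTower A E N]

lemma isIntegral_galois_apply (σ : N ≃ₐ[E] N) {x : N} (hx : IsIntegral A x) :
    IsIntegral A (σ x) :=
  hx.map ((σ.restrictScalars A).toAlgHom)

/-- The action of `Gal(N/E)` on the ring of integers of `N`. -/
@[reducible] noncomputable def galActionOInt :
    MulSemiringAction (N ≃ₐ[E] N) (integralClosure A N) where
  smul σ x := ⟨σ x, isIntegral_galois_apply A E N σ x.2⟩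
  one_smul x := Subtype.ext rfl
  mul_smul σ τ x := Subtype.ext rfl
  smul_zero σ := Subtype.ext (map_zero σ)
  smul_add σ x y := Subtype.ext (map_add σ _ _)
  smul_one σ := Subtype.ext (map_one σ)
  smul_mul σ x y := Subtype.ext (map_mul σ _ _)

attribute [local instance] galActionOInt

lemma coe_galActionOInt_smul (σ : N ≃ₐ[E] N) (x : integralClosure A N) :
    ((σ • x : integralClosure A N) : N) = σ (x : N) := rfl

/-- the inclusion of rings of integers `O_E → O_N`. -/
noncomputable def oIntMap : integralClosure A E →ₐ[A] integralClosure A N :=
  (IsScalarTower.toAlgHom A E N).mapIntegralClosure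

/-- the algebra structure `O_E → O_N`. -/
@[reducible] noncomputable def oIntAlgebra :
    Algebra (integralClosure A E) (integralClosure A N) :=
  (oIntMap A E N).toRingHom.toAlgebra

attribute [local instance] oIntAlgebra

lemma coe_algebraMap_oInt (x : integralClosure A E) :
    ((algebraMap (integralClosure A E) (integralClosure A N) x : integralClosure A N) : N) =
      algebraMap E N (x : E) := rfl

lemma isScalarTower_A_OE_ON : IsScalarTower A (integralClosure A E) (integralClosure A N) :=
  IsScalarTower.of_algebraMap_eq (fun a => by
    apply Subtype.ext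
    rw [coe_algebraMap_oInt]
    simp [← IsScalarTower.algebraMap_apply A E N])

lemma isScalarTower_OE_ON_N : IsScalarTower (integralClosure A E) (integralClosure A N) N :=
  IsScalarTower.of_algebraMap_eq (fun x => by
    rw [IsScalarTower.algebraMap_apply (integralClosure A E) E N]
    rfl)

lemma smulDistribClass_gal_ON_N : SMulDistribClass (N ≃ₐ[E] N) (integralClosure A N) N :=
  ⟨fun g s n => by
    show g (s • n) = (g • s) • (g n)
    rw [Algebra.smul_def, Algebra.smul_def, map_mul]
    rfl⟩

lemma isIntegral_OE_ON : Algebra.IsIntegral (integralClosure A E) (integralClosure A N) := by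
  haveI := isScalarTower_A_OE_ON A E N
  constructor
  intro x
  have h1 : IsIntegral A x := integralClosure.isIntegral x
  exact h1.tower_top

lemma algebraMap_OE_ON_injective :
    Function.Injective (algebraMap (integralClosure A E) (integralClosure A N)) := by
  intro x y hxy
  have := congrArg (Subtype.val) hxy
  rw [coe_algebraMap_oInt, coe_algebraMap_oInt] at this
  exact Subtype.ext ((algebraMap E N).injective this)

end Tower

section Core
variable (A F : Type) [CommRing A] [IsDomain A] [IsDiscreteValuationRing A]
    [IsAdicComplete (IsLocalRing.maximalIdeal A) A] [Finite (IsLocalRing.ResidueField A)]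
    [Field F] [CharZero F] [Algebra A F] [IsFractionRing A F]
variable (E : Type) [Field E] [Algebra F E] [FiniteDimensional F E]
variable (N : Type) [Field N] [Algebra F N] [Algebra E N] [IsScalarTower F E N]
    [FiniteDimensional E N] [IsGalois E N]
variable [Algebra A E] [IsScalarTower A F E] [Algebra A N] [IsScalarTower A F N]
variable [IsScalarTower A E N] [FiniteDimensional F N]
variable [IsLocalRing (integralClosure A N)] [IsDedekindDomain (integralClosure A N)]
  [IsFractionRing (integralClosure A N) N]

attribute [local instance] galActionOInt oIntAlgebra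

include F in
theorem valL_subfield :
    ∃ e : ℕ, e = Nat.card (Ideal.inertia (N ≃ₐ[E] N)
        (IsLocalRing.maximalIdeal (integralClosure A N))) ∧ 0 < e ∧
      (∀ y : E, y ≠ 0 → ∃ m : ℤ, valL A F N (algebraMap E N y) = WithZero.exp ((e : ℤ) * m)) ∧
      (∃ y : E, y ≠ 0 ∧ valL A F N (algebraMap E N y) = WithZero.exp (-(e : ℤ))) := by
  classical
  haveI hDedR : IsDedekindDomain (integralClosure A E) := isDedekindDomain_OInt A F E
  haveI hFracR : IsFractionRing (integralClosure A E) E := isFractionRing_OInt A F E
  haveI hFinS : Module.Finite A (integralClosure A N) := finite_OInt A F N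
  haveI := isScalarTower_A_OE_ON A E N
  haveI := isScalarTower_OE_ON_N A E N
  haveI := smulDistribClass_gal_ON_N A E N
  haveI := isIntegral_OE_ON A E N
  haveI hFinRS : Module.Finite (integralClosure A E) (integralClosure A N) :=
    Module.Finite.of_restrictScalars_finite A _ _
  haveI hFaith : FaithfulSMul (integralClosure A E) (integralClosure A N) :=
    (faithfulSMul_iff_algebraMap_injective _ _).2 (algebraMap_OE_ON_injective A E N)
  haveI hGal : IsGaloisGroup (N ≃ₐ[E] N) (integralClosure A E) (integralClosure A N) :=
    IsGaloisGroup.of_isFractionRing _ (integralClosure A E) (integralClosure A N) E N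
  set P : Ideal (integralClosure A N) := IsLocalRing.maximalIdeal (integralClosure A N) with hP
  set p : Ideal (integralClosure A E) := P.under (integralClosure A E) with hp
  haveI hPp : P.LiesOver p := ⟨rfl⟩
  have hPne : P ≠ ⊥ := maximalIdeal_OInt_ne_bot A F N
  have hpne : p ≠ ⊥ := Ideal.under_ne_bot _ hPne
  haveI hpprime : p.IsPrime := Ideal.IsPrime.under _ P
  haveI hpmax : p.IsMaximal := hpprime.isMaximal hpne
  -- finiteness of the residue field
  haveI hfinq : Finite (integralClosure A E ⧸ p) := by
    let J : Ideal A := Ideal.under A p
    have hJne : J ≠ ⊥ := by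
      haveI : Algebra.IsIntegral A (integralClosure A E) :=
        ⟨fun x => integralClosure.isIntegral x⟩
      exact Ideal.under_ne_bot A hpne
    haveI : J.IsPrime := Ideal.IsPrime.under _ p
    have hJ : J = IsLocalRing.maximalIdeal A :=
      IsLocalRing.eq_maximalIdeal (Ideal.IsPrime.isMaximal inferInstance hJne)
    haveI : Finite (A ⧸ J) := by
      rw [hJ]; exact (inferInstance : Finite (IsLocalRing.ResidueField A))
    haveI : Module.Finite A (integralClosure A E) := finite_OInt A F E
    haveI : Module.Finite (A ⧸ J) (integralClosure A E ⧸ p) :=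
      Module.Finite.of_restrictScalars_finite A _ _
    exact Module.finite_of_finite (A ⧸ J)
  haveI hperf : PerfectField p.ResidueField := inferInstance
  have h1 : Nat.card (P.inertia (N ≃ₐ[E] N)) = p.ramificationIdxIn (integralClosure A N) :=
    Ideal.card_inertia_eq_ramificationIdxIn p P
  have h2 : p.ramificationIdxIn (integralClosure A N) = P.ramificationIdx (integralClosure A E) :=
    Ideal.ramificationIdxIn_eq_ramificationIdx p P (N ≃ₐ[E] N)
  have h3 : p.ramificationIdx' P = P.ramificationIdx (integralClosure A E) :=
    Ideal.ramificationIdx'_eq_ramificationIdx p P hpne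
  let v : HeightOneSpectrum (integralClosure A E) := ⟨p, hpprime, hpne⟩
  haveI hwv : (wOInt A F N).asIdeal.LiesOver v.asIdeal := hPp
  have key : ∀ y : E, v.valuation E y ^ (p.ramificationIdx' P) =
      valL A F N (algebraMap E N y) := fun y =>
    HeightOneSpectrum.valuation_liesOver N v (wOInt A F N) y
  refine ⟨p.ramificationIdx' P, by rw [h3, ← h2, ← h1], ?_, ?_, ?_⟩
  · rw [h3]; exact Ideal.ramificationIdx_pos P _
  · intro y hy
    have hvy : v.valuation E y ≠ 0 := by simpa using hy
    refine ⟨WithZero.log (v.valuation E y), ?_⟩
    rw [← key y, ← WithZero.exp_log hvy, ← WithZero.exp_nsmul, WithZero.exp_log hvy]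
    simp
  · obtain ⟨π, hπ⟩ := HeightOneSpectrum.valuation_exists_uniformizer E v
    refine ⟨π, ?_, ?_⟩
    · rintro rfl
      rw [map_zero] at hπ
      exact WithZero.exp_ne_zero hπ.symm
    · rw [← key π, hπ, ← WithZero.exp_nsmul]
      simp

end Core

end Fermat.Agent.S55.Local.H597
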