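import Mathlib
import Fermat.Agent.S55.Local.H597.Core

/-!
# S55, layer L, piece UR6 (helper597) — part 4: `IsUnram` through the valuation of the top field
-/

set_option autoImplicit false
set_option linter.unusedSectionVars false
set_option linter.unusedVariables false
set_option linter.style.haveILetI false

open Fermat.Agent.S55.Local IsDedekindDomain

namespace Fermat.Agent.S55.Local.H597

section Unram
variable (A F : Type) [CommRing A] [IsDomain A] [IsDiscreteValuationRing A]
    [IsAdicComplete (IsLocalRing.maximalIdeal A) A] [Finite (IsLocalRing.ResidueField A)]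
    [Field F] [CharZero F] [Algebra A F] [IsFractionRing A F]
variable (E : Type) [Field E] [Algebra F E] [FiniteDimensional F E]
variable (N : Type) [Field N] [Algebra F N] [Algebra E N] [IsScalarTower F E N]
variable [Algebra A E] [IsScalarTower A F E] [Algebra A N] [IsScalarTower A F N]
variable [IsScalarTower A E N] [FiniteDimensional F N]
variable [IsLocalRing (integralClosure A N)] [IsDedekindDomain (integralClosure A N)]
  [IsFractionRing (integralClosure A N) N]

include F in
lemma isInt_sub_iff (t : E) : IsInt A F E t ↔ IsInt A F N (algebraMap E N t) := by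
  rw [isInt_iff_isIntegral A F E, isInt_iff_isIntegral A F N]
  exact (isIntegral_algebraMap_iff (algebraMap E N).injective).symm

lemma mem_intUnits_sub_iff (z : Eˣ) :
    z ∈ intUnits A F E ↔ valL A F N (algebraMap E N z) = 1 := by
  have h := mem_intUnits_iff_valL A F N (unitsIncl N E z)
  rw [unitsIncl_coe] at h
  rw [← h, mem_intUnits, mem_intUnits, isInt_sub_iff A F E N, isInt_sub_iff A F E N]
  have e1 : algebraMap E N ((z⁻¹ : Eˣ) : E) = (((unitsIncl N E z)⁻¹ : Nˣ) : N) := by
    rw [← map_inv, unitsIncl_coe]
  rw [e1, unitsIncl_coe]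

lemma isUnram_top_iff :
    IsUnram A F N E ↔
      ∀ x : Nˣ, ∃ y : Eˣ, valL A F N (x : N) = valL A F N (algebraMap E N y) := by
  unfold IsUnram
  refine forall_congr' fun x => exists_congr fun y => ?_
  rw [mem_intUnits_iff_valL A F N, Units.val_mul, map_mul, Units.val_inv_eq_inv_val, map_inv₀,
    unitsIncl_coe]
  have hy : valL A F N (algebraMap E N y) ≠ 0 := by simp
  rw [mul_inv_eq_one₀ hy]

variable (K : Type) [Field K] [Algebra K E]

lemma isUnram_bot_iff :
    IsUnram A F E K ↔
      ∀ x : Eˣ, ∃ y : Kˣ,
        valL A F N (algebraMap E N x) = valL A F N (algebraMap E N (algebraMap K E y)) := by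
  unfold IsUnram
  refine forall_congr' fun x => exists_congr fun y => ?_
  rw [mem_intUnits_sub_iff A F E N, Units.val_mul, map_mul, map_mul, Units.val_inv_eq_inv_val,
    map_inv₀, map_inv₀, unitsIncl_coe]
  have hy : valL A F N (algebraMap E N (algebraMap K E y)) ≠ 0 := by simp
  rw [mul_inv_eq_one₀ hy]

end Unram

end Fermat.Agent.S55.Local.H597
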