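import Mathlib
import Fermat.Agent.S55.Local.H597.Unram

/-!
# S55, layer L, piece UR6 (helper597): `InertiaStatement`

`theorem Fermat.Agent.S55.Local.H597.inertiaStatement : Fermat.Agent.S55.Local.InertiaStatement`.

The subgroup `I` is the inertia group of the maximal ideal of the ring of integers
`integralClosure A N` in `Gal(N/K)`.  For an intermediate field `E` with `H = Gal(N/E)`:
`#(I ⊓ H) = e(N/E)` (Mathlib `Ideal.card_inertia_eq_ramificationIdxIn`), and the valuation of
`N` maps `Eˣ` onto the `e(N/E)`-th powers (`valL_subfield`).  Hence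
`N/E` unramified `↔ e(N/E) = 1 ↔ I ⊓ H = ⊥`, and `E/K` unramified `↔ e(N/E) = e(N/K) ↔ I ≤ H`.
-/

set_option autoImplicit false
set_option linter.unusedSectionVars false
set_option linter.unusedVariables false
set_option linter.style.haveILetI false

open Fermat.Agent.S55.Local IsDedekindDomain

namespace Fermat.Agent.S55.Local.H597

section Copy
variable {K N : Type} [Field K] [Field N] [Algebra K N]

/-- A copy of the intermediate field `↥E` carrying only the instances we declare (this blocks
Mathlib's default `Module R ↥E` / `Algebra R ↥E` instances, which would clash with the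
`Algebra F ↥E` instance prescribed by `InertiaStatement`). -/
def SubF (E : IntermediateField K N) : Type := ↥E

variable (E : IntermediateField K N)

noncomputable instance instFieldSubF : Field (SubF E) := inferInstanceAs (Field ↥E)
noncomputable instance instAlgebraKSubF : Algebra K (SubF E) := inferInstanceAs (Algebra K ↥E)
noncomputable instance instAlgebraSubFN : Algebra (SubF E) N := inferInstanceAs (Algebra ↥E N)
instance instTowerKSubFN : IsScalarTower K (SubF E) N :=
  inferInstanceAs (IsScalarTower K ↥E N)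
instance instFinKSubF [FiniteDimensional K N] : FiniteDimensional K (SubF E) :=
  inferInstanceAs (FiniteDimensional K ↥E)
instance instFinSubFN [FiniteDimensional K N] : FiniteDimensional (SubF E) N :=
  inferInstanceAs (FiniteDimensional ↥E N)
instance instGalSubFN [FiniteDimensional K N] [IsGalois K N] : IsGalois (SubF E) N :=
  inferInstanceAs (IsGalois ↥E N)

end Copy

section
variable (A K N : Type) [CommRing A] [Field K] [Field N] [Algebra A K] [Algebra A N] [Algebra K N]
  [IsScalarTower A K N]
variable (E : IntermediateField K N) [Algebra A (SubF E)] [IsScalarTower A (SubF E) N]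

attribute [local instance] galActionOInt

lemma card_inertia_sub (P : Ideal (integralClosure A N)) :
    Nat.card (Ideal.inertia (N ≃ₐ[SubF E] N) P) =
      Nat.card ↥(Ideal.inertia (N ≃ₐ[K] N) P ⊓ E.fixingSubgroup) := by
  have e0 : ↥E.fixingSubgroup ≃* (N ≃ₐ[SubF E] N) := IntermediateField.fixingSubgroupEquiv E
  have e1 : Ideal.inertia ↥(E.fixingSubgroup) P ≃* Ideal.inertia (N ≃ₐ[SubF E] N) P :=
    Ideal.inertiaEquiv P (IntermediateField.fixingSubgroupEquiv E : ↥E.fixingSubgroup ≃* (N ≃ₐ[SubF E] N)) (fun m x => rfl)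
  rw [← Nat.card_congr e1.toEquiv]
  have h2 := AddSubgroup.inertia_map_subtype (G := N ≃ₐ[K] N) P.toAddSubgroup E.fixingSubgroup
  have h3 : Ideal.inertia (N ≃ₐ[K] N) P ⊓ E.fixingSubgroup =
      (Ideal.inertia ↥(E.fixingSubgroup) P).map E.fixingSubgroup.subtype := h2.symm
  rw [h3]
  exact (Nat.card_congr (Subgroup.equivMapOfInjective _ _
    (Subgroup.subtype_injective _)).toEquiv)

end

section
variable (A K N : Type) [CommRing A] [Field K] [Field N] [Algebra A K] [Algebra A N] [Algebra K N]
  [IsScalarTower A K N]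

attribute [local instance] galActionOInt

lemma smul_mem_maximalIdeal_OInt [IsLocalRing (integralClosure A N)] (σ : N ≃ₐ[K] N)
    {x : integralClosure A N} (hx : x ∈ IsLocalRing.maximalIdeal (integralClosure A N)) :
    σ • x ∈ IsLocalRing.maximalIdeal (integralClosure A N) := by
  rw [IsLocalRing.mem_maximalIdeal, mem_nonunits_iff] at hx ⊢
  intro h
  apply hx
  have : IsUnit (σ⁻¹ • (σ • x)) := by
    obtain ⟨u, hu⟩ := h
    refine ⟨⟨σ⁻¹ • (u : integralClosure A N),
      σ⁻¹ • ((u⁻¹ : (integralClosure A N)ˣ) : integralClosure A N), ?_, ?_⟩, ?_⟩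
    · rw [← smul_mul', Units.mul_inv, smul_one]
    · rw [← smul_mul', Units.inv_mul, smul_one]
    · simp [hu]
  simpa using this

lemma inertia_normal_OInt [IsLocalRing (integralClosure A N)] :
    (Ideal.inertia (N ≃ₐ[K] N) (IsLocalRing.maximalIdeal (integralClosure A N))).Normal := by
  constructor
  intro τ hτ σ
  rw [AddSubgroup.mem_inertia] at hτ ⊢
  intro x
  have h1 := hτ (σ⁻¹ • x)
  have h2 := smul_mem_maximalIdeal_OInt A K N σ h1
  have : σ • (τ • σ⁻¹ • x - σ⁻¹ • x) = (σ * τ * σ⁻¹) • x - x := by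
    rw [smul_sub, smul_smul, smul_smul, smul_smul, mul_inv_cancel, one_smul]
  rw [this] at h2
  exact h2

end

/-- arithmetic in `ℤᵐ⁰`: auxiliary -/
lemma exp_mul_eq_neg_one {e : ℕ} {m : ℤ}
    (h : (WithZero.exp ((e : ℤ) * m) : WithZero (Multiplicative ℤ)) = WithZero.exp (-1 : ℤ)) :
    e = 1 := by
  have h' : (e : ℤ) * m = -1 := WithZero.exp_inj.1 h
  have h1 : (e : ℤ) ∣ 1 := ⟨-m, by linarith⟩
  have h2 : (e : ℤ) = 1 := Int.eq_one_of_dvd_one (by positivity) h1
  exact_mod_cast h2

/-- **UR6** (`InertiaStatement`). -/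
theorem inertiaStatement : InertiaStatement := by
  intro A F _ _ _ _ _ _ _ _ _ K _ _ _ N _ _ _ _ _ _
  classical
  letI : Algebra A K := (toL A F K).toAlgebra
  letI : Algebra A N := (toL A F N).toAlgebra
  haveI : IsScalarTower A F K := IsScalarTower.of_algebraMap_eq (fun _ => rfl)
  haveI : IsScalarTower A F N := IsScalarTower.of_algebraMap_eq (fun _ => rfl)
  haveI : IsScalarTower A K N := IsScalarTower.of_algebraMap_eq (fun a => by
    show toL A F N a = algebraMap K N (toL A F K a)
    simp [toL_apply, ← IsScalarTower.algebraMap_apply F K N])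
  haveI : FiniteDimensional F N := FiniteDimensional.trans F K N
  haveI := isLocalRing_OInt A F N
  haveI := isDedekindDomain_OInt A F N
  haveI := isFractionRing_OInt A F N
  letI := galActionOInt A K N
  refine ⟨Ideal.inertia (N ≃ₐ[K] N) (IsLocalRing.maximalIdeal (integralClosure A N)),
    inertia_normal_OInt A K N, ?_⟩
  intro E
  set I : Subgroup (N ≃ₐ[K] N) :=
    Ideal.inertia (N ≃ₐ[K] N) (IsLocalRing.maximalIdeal (integralClosure A N)) with hI
  -- data for `K`
  obtain ⟨eK, heK, heKpos, hK1, hK2⟩ := valL_subfield A F K N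
  -- instances for `E` (on the copy `SubF E`)
  letI algFE : Algebra F (SubF E) := ((algebraMap K (SubF E)).comp (algebraMap F K)).toAlgebra
  haveI : IsScalarTower F K (SubF E) := IsScalarTower.of_algebraMap_eq (fun _ => rfl)
  haveI : IsScalarTower F (SubF E) N := IsScalarTower.of_algebraMap_eq (fun f => by
    show algebraMap F N f = algebraMap (SubF E) N (algebraMap K (SubF E) (algebraMap F K f))
    rw [← IsScalarTower.algebraMap_apply K (SubF E) N, ← IsScalarTower.algebraMap_apply F K N])
  haveI : FiniteDimensional F (SubF E) := FiniteDimensional.trans F K (SubF E)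
  letI algAE : Algebra A (SubF E) := (toL A F (SubF E)).toAlgebra
  haveI : IsScalarTower A F (SubF E) := IsScalarTower.of_algebraMap_eq (fun _ => rfl)
  haveI : IsScalarTower A (SubF E) N := IsScalarTower.of_algebraMap_eq (fun a => by
    show toL A F N a = algebraMap (SubF E) N (toL A F (SubF E) a)
    simp [toL_apply, ← IsScalarTower.algebraMap_apply F (SubF E) N])
  obtain ⟨eE, heE, heEpos, hE1, hE2⟩ := valL_subfield A F (SubF E) N
  have hUtop : IsUnram A F N ↥E ↔
      ∀ x : Nˣ, ∃ y : (SubF E)ˣ, valL A F N (x : N) = valL A F N (algebraMap (SubF E) N y) :=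
    isUnram_top_iff A F (SubF E) N
  have hUbot : @IsUnram A F _ _ _ ↥E _ (((algebraMap K ↥E).comp (algebraMap F K)).toAlgebra) K _ _ ↔
      ∀ x : (SubF E)ˣ, ∃ y : Kˣ,
        valL A F N (algebraMap (SubF E) N x) =
          valL A F N (algebraMap (SubF E) N (algebraMap K (SubF E) y)) :=
    isUnram_bot_iff A F (SubF E) N K
  have heE' : eE = Nat.card ↥(I ⊓ E.fixingSubgroup) := by
    rw [heE]; exact card_inertia_sub A K N E _
  have heK' : eK = Nat.card ↥I := heK
  haveI : Finite ↥I := inferInstance
  have hdvd : eE ∣ eK := by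
    rw [heE', heK']; exact Subgroup.card_dvd_of_le inf_le_left
  constructor
  · -- `N / E` unramified iff `H ⊓ I = ⊥`
    rw [hUtop, inf_comm, ← Subgroup.card_eq_one, ← heE']
    constructor
    · intro h
      obtain ⟨π, hπ⟩ := exists_valL_eq_exp_neg_one A F N
      have hπ0 : π ≠ 0 := by
        rintro rfl
        rw [map_zero] at hπ
        exact WithZero.exp_ne_zero hπ.symm
      obtain ⟨y, hy⟩ := h (Units.mk0 π hπ0)
      obtain ⟨m, hm⟩ := hE1 (y : SubF E) y.ne_zero
      rw [Units.val_mk0, hπ, hm] at hy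
      exact exp_mul_eq_neg_one hy.symm
    · intro h x
      obtain ⟨y₀, hy₀, hval⟩ := hE2
      rw [h] at hval
      have hx : valL A F N (x : N) ≠ 0 := by simp
      refine ⟨(Units.mk0 y₀ hy₀) ^ (-(WithZero.log (valL A F N (x : N)))), ?_⟩
      rw [Units.val_zpow_eq_zpow_val, Units.val_mk0, map_zpow₀, map_zpow₀, hval,
        ← WithZero.exp_zsmul]
      simp [WithZero.exp_log hx]
  · -- `E / K` unramified iff `I ≤ H`
    rw [hUbot]
    constructor
    · intro h
      obtain ⟨y₀, hy₀, hval⟩ := hE2
      obtain ⟨y, hy⟩ := h (Units.mk0 y₀ hy₀)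
      obtain ⟨m, hm⟩ := hK1 (y : K) y.ne_zero
      rw [Units.val_mk0, hval, ← IsScalarTower.algebraMap_apply K (SubF E) N, hm] at hy
      have h' : -(eE : ℤ) = (eK : ℤ) * m := WithZero.exp_inj.1 hy
      have hdvd' : (eK : ℤ) ∣ (eE : ℤ) := ⟨-m, by linarith⟩
      have hKE : eK ∣ eE := by exact_mod_cast hdvd'
      have heq : eE = eK := Nat.dvd_antisymm hdvd hKE
      have hcard : Nat.card ↥I ≤ Nat.card ↥(I ⊓ E.fixingSubgroup) := by
        rw [← heE', ← heK', heq]
      have := Subgroup.eq_of_le_of_card_ge (inf_le_left : I ⊓ E.fixingSubgroup ≤ I) hcard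
      exact inf_eq_left.1 this
    · intro h x
      have heq : eE = eK := by rw [heE', heK', inf_eq_left.2 h]
      obtain ⟨m, hm⟩ := hE1 (x : SubF E) x.ne_zero
      obtain ⟨y₀, hy₀, hval⟩ := hK2
      refine ⟨(Units.mk0 y₀ hy₀) ^ (-m), ?_⟩
      rw [hm, ← IsScalarTower.algebraMap_apply K (SubF E) N, Units.val_zpow_eq_zpow_val, Units.val_mk0,
        map_zpow₀, map_zpow₀, hval, ← WithZero.exp_zsmul, heq]
      simp [mul_comm]

end Fermat.Agent.S55.Local.H597
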